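import Mathlib

/-!
# Hilbert 90 for semilocal rings with trivial inertia (abstract core of the direct [C3] route)

`R` is a commutative ring with finitely many maximal ideals, acted on by a finite group `G`
through ring automorphisms, such that every `g ≠ 1` moves some element modulo every maximal
ideal (`TrivialInertia`).  Then for every `1`-cocycle `c : G → Rˣ` some Poincaré series
`∑ g, c g * g • x` is a unit of `R` (Dedekind's independence of characters modulo each maximal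
ideal, patched by the Chinese remainder theorem), hence `c` is a coboundary.
-/

set_option autoImplicit false
set_option linter.style.haveILetI false

open scoped BigOperators

noncomputable section

namespace Fermat.Agent.CFT.Global.LocUnitsDirect

variable {G R : Type*} [Group G] [CommRing R] [MulSemiringAction G R]

/-- `pull g 𝔪 = g⁻¹ • 𝔪`. -/
def pull (g : G) (𝔪 : Ideal R) : Ideal R := 𝔪.comap (MulSemiringAction.toRingHom G R g)

theorem mem_pull {g : G} {𝔪 : Ideal R} {x : R} : x ∈ pull g 𝔪 ↔ g • x ∈ 𝔪 := Iff.rfl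

theorem pull_isMaximal (g : G) {𝔪 : Ideal R} (h𝔪 : 𝔪.IsMaximal) : (pull g 𝔪).IsMaximal :=
  Ideal.comap_isMaximal_of_surjective _ (MulAction.surjective g)

theorem eq_pull_of_pull_eq {g h : G} {𝔪 𝔫 : Ideal R} (e : pull g 𝔫 = pull h 𝔪) :
    𝔫 = pull (h * g⁻¹) 𝔪 := by
  ext x
  have h1 : g⁻¹ • x ∈ pull g 𝔫 ↔ g⁻¹ • x ∈ pull h 𝔪 := by rw [e]
  rw [mem_pull, mem_pull, smul_inv_smul] at h1
  rw [mem_pull, mul_smul]
  exact h1

variable (G R) in
/-- Trivial inertia: every `g ≠ 1` moves some element of `R` modulo every maximal ideal. -/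
def TrivialInertia : Prop :=
  ∀ 𝔪 : Ideal R, 𝔪.IsMaximal → ∀ g : G, (∀ x : R, g • x - x ∈ 𝔪) → g = 1

section Fin

variable [Fintype G]

/-- Dedekind independence of the characters `x ↦ g • x mod 𝔪`. -/
theorem exists_sum_notMem (hU : TrivialInertia G R) {𝔪 : Ideal R} (h𝔪 : 𝔪.IsMaximal)
    (a : G → R) (ha : a 1 ∉ 𝔪) : ∃ x : R, ∑ g : G, a g * g • x ∉ 𝔪 := by
  classical
  letI := Ideal.Quotient.field 𝔪
  by_contra hcon
  rw [not_exists] at hcon
  simp only [not_not] at hcon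
  let χ : G → (R →* R ⧸ 𝔪) := fun g =>
    ((Ideal.Quotient.mk 𝔪).comp (MulSemiringAction.toRingHom G R g) : R →+* R ⧸ 𝔪)
  have hχ : Function.Injective χ := by
    intro g h hgh
    have h1 : ∀ y : R, (h⁻¹ * g) • y - y ∈ pull h 𝔪 := by
      intro y
      rw [mem_pull, smul_sub, smul_smul, mul_inv_cancel_left]
      have h2 : χ g y = χ h y := by rw [hgh]
      exact Ideal.Quotient.eq.mp h2
    have h3 := hU _ (pull_isMaximal h h𝔪) _ h1
    exact (inv_mul_eq_one.mp h3).symm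
  have hli := (linearIndependent_monoidHom R (R ⧸ 𝔪)).comp χ hχ
  rw [Fintype.linearIndependent_iff] at hli
  have h0 := hli (fun g => Ideal.Quotient.mk 𝔪 (a g)) (by
    funext x
    simp only [Function.comp_apply, Finset.sum_apply, Pi.smul_apply, smul_eq_mul,
      Pi.zero_apply]
    have h4 := hcon x
    rw [← Ideal.Quotient.eq_zero_iff_mem, map_sum] at h4
    rw [← h4]
    refine Finset.sum_congr rfl fun g _ => ?_
    rw [map_mul]
    rfl) 1
  exact ha (Ideal.Quotient.eq_zero_iff_mem.mp h0)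

/-- The Poincaré series of `c` at `x`. -/
def poincare (c : G → Rˣ) (x : R) : R := ∑ g : G, (c g : R) * g • x

theorem poincare_add (c : G → Rˣ) (x y : R) : poincare c (x + y) = poincare c x + poincare c y := by
  unfold poincare
  rw [← Finset.sum_add_distrib]
  exact Finset.sum_congr rfl fun g _ => by rw [smul_add, mul_add]

theorem poincare_sub (c : G → Rˣ) (x y : R) : poincare c (x - y) = poincare c x - poincare c y := by
  unfold poincare
  rw [← Finset.sum_sub_distrib]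
  exact Finset.sum_congr rfl fun g _ => by rw [smul_sub, mul_sub]

theorem smul_poincare (c : G → Rˣ) (hc : ∀ g h, (c (g * h) : R) = c g * g • (c h : R)) (h : G)
    (x : R) : (c h : R) * h • poincare c x = poincare c x := by
  unfold poincare
  rw [Finset.smul_sum, Finset.mul_sum]
  refine Fintype.sum_equiv (Equiv.mulLeft h) _ _ fun g => ?_
  rw [Equiv.coe_mulLeft, hc h g, smul_mul', smul_smul, mul_assoc]

theorem poincare_mem_pull_iff (c : G → Rˣ)
    (hc : ∀ g h, (c (g * h) : R) = c g * g • (c h : R)) (h : G)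
    (x : R) (𝔪 : Ideal R) : poincare c x ∈ pull h 𝔪 ↔ poincare c x ∈ 𝔪 := by
  rw [mem_pull]
  constructor
  · intro h1
    rw [← smul_poincare c hc h x]
    exact 𝔪.mul_mem_left _ h1
  · intro h1
    have h2 : h • poincare c x = ((c h)⁻¹ : Rˣ) * poincare c x := by
      conv_rhs => rw [← smul_poincare c hc h x, ← mul_assoc, ← Units.val_mul, inv_mul_cancel,
        Units.val_one, one_mul]
    rw [h2]
    exact 𝔪.mul_mem_left _ h1

theorem poincare_mem_of_forall (c : G → Rˣ) (x : R) (𝔪 : Ideal R)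
    (h : ∀ g : G, x ∈ pull g 𝔪) : poincare c x ∈ 𝔪 :=
  𝔪.sum_mem fun g _ => 𝔪.mul_mem_left _ (h g)

variable [Finite (MaximalSpectrum R)]

/-- Chinese remainder theorem along an orbit. -/
theorem exists_orbit_lift {𝔪 : Ideal R} (h𝔪 : 𝔪.IsMaximal) (x₀ : R) :
    ∃ z : R, (∀ g : G, z - x₀ ∈ pull g 𝔪) ∧
      ∀ 𝔫 : Ideal R, 𝔫.IsMaximal → (∀ g : G, 𝔫 ≠ pull g 𝔪) → z ∈ 𝔫 := by
  classical
  have hco : Pairwise (Function.onFun IsCoprime fun 𝔫 : MaximalSpectrum R => 𝔫.asIdeal) := by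
    intro 𝔫 𝔫' hne
    rw [Function.onFun, Ideal.isCoprime_iff_sup_eq]
    exact Ideal.IsMaximal.coprime_of_ne 𝔫.isMaximal 𝔫'.isMaximal
      (fun h => hne (MaximalSpectrum.ext h))
  obtain ⟨z, hz⟩ := Ideal.exists_forall_sub_mem_ideal hco
    (fun 𝔫 : MaximalSpectrum R => if ∃ g : G, 𝔫.asIdeal = pull g 𝔪 then x₀ else 0)
  refine ⟨z, fun g => ?_, fun 𝔫 h𝔫 hne => ?_⟩
  · have := hz ⟨pull g 𝔪, pull_isMaximal g h𝔪⟩
    rwa [if_pos ⟨g, rfl⟩] at this
  · have := hz ⟨𝔫, h𝔫⟩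
    rwa [if_neg (fun ⟨g, hg⟩ => hne g hg), sub_zero] at this

/-- Some Poincaré series avoids every maximal ideal. -/
theorem exists_poincare_notMem (hU : TrivialInertia G R) (c : G → Rˣ)
    (hc : ∀ g h, (c (g * h) : R) = c g * g • (c h : R)) :
    ∃ x : R, ∀ 𝔪 : Ideal R, 𝔪.IsMaximal → poincare c x ∉ 𝔪 := by
  classical
  haveI := Fintype.ofFinite (MaximalSpectrum R)
  have key : ∀ s : Finset (MaximalSpectrum R), ∃ x : R, ∀ 𝔫 ∈ s, poincare c x ∉ 𝔫.asIdeal := by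
    intro s
    induction s using Finset.induction_on with
    | empty => exact ⟨0, fun 𝔫 h => absurd h (Finset.notMem_empty _)⟩
    | insert 𝔪 s hms ih =>
      obtain ⟨x, hx⟩ := ih
      by_cases hxm : poincare c x ∈ 𝔪.asIdeal
      swap
      · refine ⟨x, fun 𝔫 h𝔫 => ?_⟩
        rcases Finset.mem_insert.mp h𝔫 with rfl | h
        · exact hxm
        · exact hx 𝔫 h
      obtain ⟨x₀, hx₀⟩ := exists_sum_notMem hU 𝔪.isMaximal (fun g => (c g : R))
        (fun h => 𝔪.isMaximal.ne_top (Ideal.eq_top_of_isUnit_mem _ h (c 1).isUnit))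
      obtain ⟨z, hz1, hz2⟩ := exists_orbit_lift (G := G) 𝔪.isMaximal x₀
      have hzm : poincare c z ∉ 𝔪.asIdeal := by
        intro h
        apply hx₀
        have h1 : poincare c (z - x₀) ∈ 𝔪.asIdeal := poincare_mem_of_forall c _ _ hz1
        rw [poincare_sub] at h1
        have h2 := 𝔪.asIdeal.sub_mem h h1
        rwa [sub_sub_cancel] at h2
      refine ⟨x + z, fun 𝔫 h𝔫 => ?_⟩
      rw [poincare_add]
      rcases Finset.mem_insert.mp h𝔫 with rfl | h
      · intro h1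
        exact hzm (by simpa using 𝔫.asIdeal.sub_mem h1 hxm)
      · have hne : ∀ g h' : G, pull g 𝔫.asIdeal ≠ pull h' 𝔪.asIdeal := by
          intro g h' e
          have e2 := eq_pull_of_pull_eq e
          apply hx 𝔫 h
          rw [e2, poincare_mem_pull_iff c hc]
          exact hxm
        have h1 : poincare c z ∈ 𝔫.asIdeal :=
          poincare_mem_of_forall c _ _
            (fun g => hz2 _ (pull_isMaximal g 𝔫.isMaximal) (fun h' => hne g h'))
        intro h2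
        exact hx 𝔫 h (by simpa using 𝔫.asIdeal.sub_mem h2 h1)
  obtain ⟨x, hx⟩ := key Finset.univ
  exact ⟨x, fun 𝔪 h𝔪 => hx ⟨𝔪, h𝔪⟩ (Finset.mem_univ _)⟩

/-- **Hilbert 90** for a semilocal ring with trivial inertia: every `1`-cocycle with values in
`Rˣ` is a coboundary. -/
theorem exists_unit_of_cocycle (hU : TrivialInertia G R) (c : G → Rˣ)
    (hc : ∀ g h, (c (g * h) : R) = c g * g • (c h : R)) :
    ∃ b : Rˣ, ∀ g : G, (c g : R) * g • (b : R) = b := by
  obtain ⟨x, hx⟩ := exists_poincare_notMem hU c hc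
  have hu : IsUnit (poincare c x) := by
    by_contra hnu
    obtain ⟨𝔪, h𝔪, hmem⟩ := exists_max_ideal_of_mem_nonunits hnu
    exact hx 𝔪 h𝔪 hmem
  exact ⟨hu.unit, fun g => smul_poincare c hc g x⟩

/-- A trace-unit element: `∑ g, g • x` is a unit for some `x`. -/
theorem exists_trace_isUnit (hU : TrivialInertia G R) : ∃ x : R, IsUnit (∑ g : G, g • x) := by
  obtain ⟨x, hx⟩ := exists_poincare_notMem hU (fun _ : G => (1 : Rˣ)) (by simp)
  refine ⟨x, ?_⟩
  have h1 : poincare (fun _ : G => (1 : Rˣ)) x = ∑ g : G, g • x := by simp [poincare]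
  rw [← h1]
  by_contra hnu
  obtain ⟨𝔪, h𝔪, hmem⟩ := exists_max_ideal_of_mem_nonunits hnu
  exact hx 𝔪 h𝔪 hmem

end Fin

/-! ### Trivial inertia from reducedness modulo a radical element -/

section Inertia

theorem finite_maximalSpectrum_of (ϖ : R) (hJ : ∀ 𝔪 : Ideal R, 𝔪.IsMaximal → ϖ ∈ 𝔪)
    [Finite (R ⧸ Ideal.span {ϖ})] : Finite (MaximalSpectrum R) := by
  haveI : Finite (Ideal (R ⧸ Ideal.span {ϖ})) :=
    Finite.of_injective (fun I : Ideal (R ⧸ Ideal.span {ϖ}) => (I : Set (R ⧸ Ideal.span {ϖ})))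
      SetLike.coe_injective
  refine Finite.of_injective
    (fun 𝔪 : MaximalSpectrum R => 𝔪.asIdeal.map (Ideal.Quotient.mk (Ideal.span {ϖ}))) ?_
  intro 𝔪 𝔫 h
  have h1 : ∀ 𝔭 : MaximalSpectrum R, (𝔭.asIdeal.map (Ideal.Quotient.mk (Ideal.span {ϖ}))).comap
      (Ideal.Quotient.mk (Ideal.span {ϖ})) = 𝔭.asIdeal := by
    intro 𝔭
    rw [Ideal.comap_map_of_surjective _ Ideal.Quotient.mk_surjective, ← RingHom.ker_eq_comap_bot,
      Ideal.mk_ker, sup_eq_left, Ideal.span_singleton_le_iff_mem]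
    exact hJ _ 𝔭.isMaximal
  apply MaximalSpectrum.ext
  rw [← h1 𝔪, ← h1 𝔫]
  exact congrArg _ h

theorem mem_span_of_forall_mem (ϖ : R) [Finite (R ⧸ Ideal.span {ϖ})]
    [IsReduced (R ⧸ Ideal.span {ϖ})] (x : R) (hx : ∀ 𝔪 : Ideal R, 𝔪.IsMaximal → x ∈ 𝔪) :
    x ∈ Ideal.span {ϖ} := by
  have h0 : Ideal.jacobson (⊥ : Ideal (R ⧸ Ideal.span {ϖ})) = ⊥ := by
    obtain ⟨n, hn⟩ := IsArtinianRing.isNilpotent_jacobson_bot (R := R ⧸ Ideal.span {ϖ})
    rw [eq_bot_iff]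
    intro y hy
    have h1 : y ^ n ∈ (Ideal.jacobson (⊥ : Ideal (R ⧸ Ideal.span {ϖ}))) ^ n :=
      Ideal.pow_mem_pow hy n
    rw [hn] at h1
    exact (IsNilpotent.eq_zero ⟨n, h1⟩ : y = 0)
  have h1 := Ideal.jacobson_eq_iff_jacobson_quotient_eq_bot.mpr h0
  rw [← h1]
  exact Ideal.mem_sInf.mpr fun {𝔪} h => hx 𝔪 h.2

theorem exists_mem_sub_one_mem [Finite (MaximalSpectrum R)] {𝔪 : Ideal R} (h𝔪 : 𝔪.IsMaximal) :
    ∃ e : R, e ∈ 𝔪 ∧ ∀ 𝔫 : Ideal R, 𝔫.IsMaximal → 𝔫 ≠ 𝔪 → e - 1 ∈ 𝔫 := by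
  classical
  have hco : Pairwise (Function.onFun IsCoprime fun 𝔫 : MaximalSpectrum R => 𝔫.asIdeal) := by
    intro 𝔫 𝔫' hne
    rw [Function.onFun, Ideal.isCoprime_iff_sup_eq]
    exact Ideal.IsMaximal.coprime_of_ne 𝔫.isMaximal 𝔫'.isMaximal
      (fun h => hne (MaximalSpectrum.ext h))
  obtain ⟨z, hz⟩ := Ideal.exists_forall_sub_mem_ideal hco
    (fun 𝔫 : MaximalSpectrum R => if 𝔫.asIdeal = 𝔪 then 0 else 1)
  refine ⟨z, ?_, fun 𝔫 h𝔫 hne => ?_⟩
  · have := hz ⟨𝔪, h𝔪⟩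
    rwa [if_pos rfl, sub_zero] at this
  · have := hz ⟨𝔫, h𝔫⟩
    rwa [if_neg hne] at this

variable (ϖ : R) (hJ : ∀ 𝔪 : Ideal R, 𝔪.IsMaximal → ϖ ∈ 𝔪) [Finite (R ⧸ Ideal.span {ϖ})]
  [IsReduced (R ⧸ Ideal.span {ϖ})] [Finite (MaximalSpectrum R)] (hfix : ∀ g : G, g • ϖ = ϖ)

include hJ hfix in
theorem forall_sub_mem_pow {𝔪 : Ideal R} (h𝔪 : 𝔪.IsMaximal) (g : G)
    (hg : ∀ x : R, g • x - x ∈ 𝔪) (n : ℕ) : ∀ x : R, g • x - x ∈ 𝔪 ^ (n + 1) := by
  induction n with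
  | zero => simpa using hg
  | succ n ih =>
    have hg𝔪 : ∀ b ∈ 𝔪, g • b ∈ 𝔪 := fun b hb => by simpa using 𝔪.add_mem (hg b) hb
    have ha : ∀ m ∈ 𝔪, g • m - m ∈ 𝔪 ^ (n + 1 + 1) := by
      have hle : 𝔪 ≤ 𝔪 * 𝔪 ⊔ Ideal.span {ϖ} := by
        intro m hm
        obtain ⟨e, he, he'⟩ := exists_mem_sub_one_mem h𝔪
        have h1 : m * (1 - e) ∈ Ideal.span {ϖ} := mem_span_of_forall_mem ϖ _ (fun 𝔫 h𝔫 => by
          by_cases h : 𝔫 = 𝔪
          · subst h; exact 𝔫.mul_mem_right _ hm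
          · have h2 := he' 𝔫 h𝔫 h
            have h3 : 1 - e ∈ 𝔫 := by simpa using 𝔫.neg_mem h2
            exact 𝔫.mul_mem_left _ h3)
        have h2 : m * e ∈ 𝔪 * 𝔪 := Ideal.mul_mem_mul hm he
        have h3 : m = m * e + m * (1 - e) := by ring
        rw [h3]
        exact Ideal.add_mem _ (Ideal.mem_sup_left h2) (Ideal.mem_sup_right h1)
      intro m hm
      obtain ⟨a, ha, b, hb, rfl⟩ := Submodule.mem_sup.mp (hle hm)
      have e1 : g • (a + b) - (a + b) = (g • a - a) + (g • b - b) := by rw [smul_add]; ring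
      rw [e1]
      refine Ideal.add_mem _ ?_ ?_
      · refine Submodule.mul_induction_on ha (fun u hu v hv => ?_) (fun u v hu hv => ?_)
        · have e2 : g • (u * v) - u * v = (g • u - u) * g • v + u * (g • v - v) := by
            rw [smul_mul']; ring
          rw [e2, pow_succ]
          refine Ideal.add_mem _ (Ideal.mul_mem_mul (ih u) (hg𝔪 v hv)) ?_
          rw [mul_comm (𝔪 ^ (n + 1)) 𝔪]
          exact Ideal.mul_mem_mul hu (ih v)
        · have e3 : g • (u + v) - (u + v) = (g • u - u) + (g • v - v) := by rw [smul_add]; ring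
          rw [e3]
          exact Ideal.add_mem _ hu hv
      · obtain ⟨r, rfl⟩ := Ideal.mem_span_singleton'.mp hb
        have e4 : g • (r * ϖ) - r * ϖ = ϖ * (g • r - r) := by rw [smul_mul', hfix]; ring
        rw [e4, pow_succ, mul_comm (𝔪 ^ (n + 1)) 𝔪]
        exact Ideal.mul_mem_mul (hJ 𝔪 h𝔪) (ih r)
    intro x
    letI := Ideal.Quotient.field 𝔪
    haveI : Finite (R ⧸ 𝔪) := by
      have hle : Ideal.span {ϖ} ≤ 𝔪 := (Ideal.span_singleton_le_iff_mem _).mpr (hJ 𝔪 h𝔪)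
      exact Finite.of_surjective (Ideal.Quotient.factor hle) (Ideal.Quotient.factor_surjective hle)
    haveI := Fintype.ofFinite (R ⧸ 𝔪)
    have hxQ : x ^ Fintype.card (R ⧸ 𝔪) - x ∈ 𝔪 := by
      rw [← Ideal.Quotient.eq, map_pow]
      exact FiniteField.pow_card _
    have hb : g • (x ^ Fintype.card (R ⧸ 𝔪)) - x ^ Fintype.card (R ⧸ 𝔪) ∈ 𝔪 ^ (n + 1 + 1) := by
      rw [smul_pow']
      have e5 := (Commute.all (g • x) x).mul_geom_sum₂ (Fintype.card (R ⧸ 𝔪))
      rw [← e5, pow_succ]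
      refine Ideal.mul_mem_mul (ih x) ?_
      rw [← Ideal.Quotient.eq_zero_iff_mem, map_sum]
      have e6 : Ideal.Quotient.mk 𝔪 (g • x) = Ideal.Quotient.mk 𝔪 x :=
        Ideal.Quotient.eq.mpr (hg x)
      have e7 : ∀ i ∈ Finset.range (Fintype.card (R ⧸ 𝔪)),
          Ideal.Quotient.mk 𝔪 ((g • x) ^ i * x ^ (Fintype.card (R ⧸ 𝔪) - 1 - i)) =
            (Ideal.Quotient.mk 𝔪 x) ^ (Fintype.card (R ⧸ 𝔪) - 1) := by
        intro i hi
        rw [map_mul, map_pow, map_pow, e6, ← pow_add]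
        congr 1
        have := Finset.mem_range.mp hi
        omega
      rw [Finset.sum_congr rfl e7, Finset.sum_const, Finset.card_range, nsmul_eq_mul,
        Nat.cast_card_eq_zero, zero_mul]
    have hc := ha _ hxQ
    have e8 : g • x - x = (g • (x ^ Fintype.card (R ⧸ 𝔪)) - x ^ Fintype.card (R ⧸ 𝔪)) -
        (g • (x ^ Fintype.card (R ⧸ 𝔪) - x) - (x ^ Fintype.card (R ⧸ 𝔪) - x)) := by
      rw [smul_sub]; ring
    rw [e8]
    exact Ideal.sub_mem _ hb hc

include hJ hfix in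
/-- Trivial inertia for a ring which is reduced modulo a fixed regular element `ϖ` of its
Jacobson radical, when every `g ≠ 1` moves some element by a divisor of a power of `ϖ`. -/
theorem trivialInertia_of (hreg : ∀ x : R, ϖ * x = 0 → x = 0)
    (hsep : ∀ g : G, g ≠ 1 → ∃ (y r : R) (N : ℕ), (g • y - y) * r = ϖ ^ N) :
    TrivialInertia G R := by
  intro 𝔪 h𝔪 g hg
  by_contra hne
  obtain ⟨y, r, N, hyr⟩ := hsep g hne
  have h1 : ϖ ^ N ∈ 𝔪 ^ (N + 1) := by
    rw [← hyr]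
    exact Ideal.mul_mem_right _ _ (forall_sub_mem_pow ϖ hJ hfix h𝔪 g hg N y)
  obtain ⟨e, he, he'⟩ := exists_mem_sub_one_mem h𝔪
  have hb𝔪 : Ideal.span {1 - e} * 𝔪 ≤ Ideal.span {ϖ} := by
    rw [Ideal.span_singleton_mul_le_iff]
    intro z hz
    refine mem_span_of_forall_mem ϖ _ (fun 𝔫 h𝔫 => ?_)
    by_cases h : 𝔫 = 𝔪
    · subst h; exact 𝔫.mul_mem_left _ hz
    · exact 𝔫.mul_mem_right _ (by simpa using 𝔫.neg_mem (he' 𝔫 h𝔫 h))
  have h2 : (1 - e) ^ (N + 1) * ϖ ^ N ∈ Ideal.span {ϖ ^ (N + 1)} := by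
    rw [← Ideal.span_singleton_pow]
    refine Ideal.pow_right_mono hb𝔪 (N + 1) ?_
    rw [mul_pow, Ideal.span_singleton_pow]
    exact Ideal.mul_mem_mul (Ideal.mem_span_singleton_self _) h1
  obtain ⟨t, ht⟩ := Ideal.mem_span_singleton'.mp h2
  have hregN : ∀ (k : ℕ) (x : R), ϖ ^ k * x = 0 → x = 0 := by
    intro k
    induction k with
    | zero => intro x hx; simpa using hx
    | succ k ih =>
      intro x hx
      exact hreg x (ih _ (by rw [← mul_assoc, ← pow_succ]; exact hx))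
  have h3 : ϖ ^ N * ((1 - e) ^ (N + 1) - t * ϖ) = 0 := by
    have : ϖ ^ N * ((1 - e) ^ (N + 1) - t * ϖ) = (1 - e) ^ (N + 1) * ϖ ^ N - t * ϖ ^ (N + 1) := by
      ring
    rw [this, ht, sub_self]
  have h4 : (1 - e) ^ (N + 1) = t * ϖ := sub_eq_zero.mp (hregN N _ h3)
  have h5 : (1 - e) ^ (N + 1) ∈ 𝔪 := by
    rw [h4]
    exact 𝔪.mul_mem_left _ (hJ 𝔪 h𝔪)
  have h6 : 1 - e ∈ 𝔪 := h𝔪.isPrime.mem_of_pow_mem _ h5
  exact h𝔪.ne_top ((Ideal.eq_top_iff_one _).mpr (by simpa using 𝔪.add_mem h6 he))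

end Inertia

end Fermat.Agent.CFT.Global.LocUnitsDirect

end
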