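import Mathlib
import Fermat.Agent.CFT.Global.FIUnits
import Fermat.Agent.CFT.Global.QBridgeDefs
import Fermat.Agent.CFT.Global.LocUnitsDirect.Semilocal

/-!
# The maximal order of `L ⊗ ℚ_q` at an unramified prime: finitely many maximal ideals, trivial
inertia

`R = QBridge.maxOrder q L`.  If `L` is unramified at `q` (`UnramAt L q`), then `R / qR ≅ 𝓞 L / q`
is finite and reduced, `q` lies in the Jacobson radical of `R` (completeness), and a finite group
acting faithfully on `L` has trivial inertia on `R` (`Semilocal.trivialInertia_of`).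
-/

set_option autoImplicit false
set_option linter.style.haveILetI false

open scoped BigOperators

noncomputable section

namespace Fermat.Agent.CFT.Global.LocUnitsDirect

open TensorProduct NumberField IsDedekindDomain
open Fermat.Agent.CFT.Global Fermat.Agent.CFT.Global.QBridge
open scoped Fermat.Agent.CFT.Global

section Order

variable (L : Type) [Field L] [NumberField L] (q : ℕ) [Fact q.Prime]

/-- `q` as an element of the maximal order. -/
def qOrd : maxOrder q L := ⟨((q : ℕ) : SemiLocal L q), FIUnits.natCast_mem_maxOrder q L⟩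

/-- The map `𝓞 L → R`, `y ↦ y ⊗ 1`. -/
def ordHom : 𝓞 L →+* maxOrder q L :=
  ((Algebra.TensorProduct.includeLeft : L →ₐ[ℚ] L ⊗[ℚ] ℚ_[q]).toRingHom.comp
    (algebraMap (𝓞 L) L)).codRestrict (maxOrder q L) (fun y => tmul_mem_maxOrder y 1)

theorem coe_ordHom (y : 𝓞 L) :
    ((ordHom L q y : maxOrder q L) : SemiLocal L q) = (y : L) ⊗ₜ[ℚ] (1 : ℚ_[q]) := rfl

theorem ordHom_natCast : ordHom L q (q : 𝓞 L) = qOrd L q := by
  rw [map_natCast]
  exact Subtype.ext (by simp [qOrd])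

theorem exists_sub_ordHom_mem (b : maxOrder q L) :
    ∃ y : 𝓞 L, b - ordHom L q y ∈ Ideal.span {qOrd L q} := by
  obtain ⟨y, b', hb', hyb⟩ := exists_approx b.2 1
  refine ⟨y, Ideal.mem_span_singleton'.mpr ⟨⟨b', hb'⟩, Subtype.ext ?_⟩⟩
  show b' * ((q : ℕ) : SemiLocal L q) = (b : SemiLocal L q) - (y : L) ⊗ₜ[ℚ] (1 : ℚ_[q])
  rw [hyb, pow_one]
  ring

theorem mem_span_of_ordHom_mem (y : 𝓞 L) (h : ordHom L q y ∈ Ideal.span {qOrd L q}) :
    y ∈ Ideal.span {(q : 𝓞 L)} := by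
  have hq0 : (q : L) ≠ 0 := by exact_mod_cast (Fact.out : q.Prime).ne_zero
  obtain ⟨r, hr⟩ := Ideal.mem_span_singleton'.mp h
  have hr' : (r : SemiLocal L q) * ((q : ℕ) : SemiLocal L q) = (y : L) ⊗ₜ[ℚ] (1 : ℚ_[q]) :=
    congrArg Subtype.val hr
  -- `x = y / q` has `x ⊗ 1 = r`
  have hx : (((y : L) / (q : L)) ⊗ₜ[ℚ] (1 : ℚ_[q]) : SemiLocal L q) = r := by
    have hu : IsUnit ((q : ℕ) : SemiLocal L q) := by
      simpa using isUnit_natCast_pow (q := q) (L := L) 1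
    apply hu.mul_right_cancel
    rw [hr', natCast_eq_tmul_one, Algebra.TensorProduct.tmul_mul_tmul, mul_one,
      div_mul_cancel₀ _ hq0]
  have hint : ∀ w : HeightOneSpectrum (𝓞 L), w.valuation L ((y : L) / (q : L)) ≤ 1 := by
    intro w
    by_cases hw : (q : 𝓞 L) ∈ w.asIdeal
    · refine (isIntegralElem_tmul_one_iff (q := q) ((y : L) / (q : L))).1 ?_ w hw
      rw [← mem_maxOrder_iff, hx]
      exact r.2
    · have h1 : w.valuation L (q : L) = 1 := by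
        have h2 : (q : L) = algebraMap (𝓞 L) L (q : 𝓞 L) := by simp
        rw [h2, HeightOneSpectrum.valuation_eq_one_iff_notMem]
        exact hw
      rw [map_div₀, h1, div_one]
      exact w.valuation_le_one y
  obtain ⟨t, ht⟩ := HeightOneSpectrum.mem_integers_of_valuation_le_one L _ hint
  refine Ideal.mem_span_singleton'.mpr ⟨t, ?_⟩
  apply RingOfIntegers.ext
  have h3 : ((t * (q : 𝓞 L) : 𝓞 L) : L) = (y : L) / (q : L) * (q : L) := by
    rw [← ht]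
    simp
  rw [h3, div_mul_cancel₀ _ hq0]

instance finite_quotient : Finite (maxOrder q L ⧸ Ideal.span {qOrd L q}) := by
  have h := FIUnits.order_finite_quotient q L 1
  simp only [pow_one] at h
  exact h

theorem isReduced_quotient (h : UnramAt L q) :
    IsReduced (maxOrder q L ⧸ Ideal.span {qOrd L q}) := by
  haveI : IsReduced (𝓞 L ⧸ Ideal.span {(q : 𝓞 L)}) := h
  refine ⟨fun x hx => ?_⟩
  obtain ⟨n, hn⟩ := hx
  obtain ⟨b, rfl⟩ := Ideal.Quotient.mk_surjective x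
  obtain ⟨y, hy⟩ := exists_sub_ordHom_mem L q b
  have e1 : Ideal.Quotient.mk (Ideal.span {qOrd L q}) b =
      Ideal.Quotient.mk (Ideal.span {qOrd L q}) (ordHom L q y) := Ideal.Quotient.eq.mpr hy
  rw [e1, ← map_pow, ← map_pow, Ideal.Quotient.eq_zero_iff_mem] at hn
  have h2 : y ^ n ∈ Ideal.span {(q : 𝓞 L)} := mem_span_of_ordHom_mem L q _ hn
  have h3 : IsNilpotent (Ideal.Quotient.mk (Ideal.span {(q : 𝓞 L)}) y) :=
    ⟨n, by rw [← map_pow, Ideal.Quotient.eq_zero_iff_mem]; exact h2⟩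
  have h4 := Ideal.Quotient.eq_zero_iff_mem.mp h3.eq_zero
  obtain ⟨t, ht⟩ := Ideal.mem_span_singleton'.mp h4
  rw [e1, Ideal.Quotient.eq_zero_iff_mem, ← ht, map_mul, ordHom_natCast]
  exact Ideal.mul_mem_left _ _ (Ideal.mem_span_singleton_self _)

theorem qOrd_mem_of_isMaximal (𝔪 : Ideal (maxOrder q L)) (h𝔪 : 𝔪.IsMaximal) : qOrd L q ∈ 𝔪 := by
  haveI : IsAdicComplete (Ideal.span {qOrd L q}) (maxOrder q L) :=
    FIUnits.order_isAdicComplete q L
  have h1 : qOrd L q ∈ (⊥ : Ideal (maxOrder q L)).jacobson :=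
    IsAdicComplete.le_jacobson_bot (Ideal.span {qOrd L q}) (Ideal.mem_span_singleton_self _)
  exact Ideal.mem_sInf.mp h1 ⟨bot_le, h𝔪⟩

instance finite_maximalSpectrum : Finite (MaximalSpectrum (maxOrder q L)) :=
  finite_maximalSpectrum_of (qOrd L q) (qOrd_mem_of_isMaximal L q)

theorem qOrd_regular (x : maxOrder q L) (h : qOrd L q * x = 0) : x = 0 := by
  have hu : IsUnit ((q : ℕ) : SemiLocal L q) := by
    simpa using isUnit_natCast_pow (q := q) (L := L) 1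
  have h1 : ((q : ℕ) : SemiLocal L q) * (x : SemiLocal L q) = 0 := congrArg Subtype.val h
  exact Subtype.ext (hu.mul_right_eq_zero.mp h1)

end Order

section Action

variable (G L : Type) [Group G] [Field L] [NumberField L] [MulSemiringAction G L]
  (q : ℕ) [Fact q.Prime]

instance invariant_maxOrder : IsInvariantSubring G (maxOrder q L) :=
  ⟨fun g x hx => (isInt_iff_mem_maxOrder _).1 (((isInt_iff_mem_maxOrder x).2 hx).smul g)⟩

theorem smul_qOrd (g : G) : g • qOrd L q = qOrd L q :=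
  Subtype.ext (map_natCast (MulSemiringAction.toRingHom G (SemiLocal L q) g) q)

theorem exists_sep [FaithfulSMul G L] (g : G) (hg : g ≠ 1) :
    ∃ (y r : maxOrder q L) (N : ℕ), (g • y - y) * r = qOrd L q ^ N := by
  obtain ⟨y₀, hy₀⟩ : ∃ y₀ : L, g • y₀ ≠ y₀ := by
    by_contra hcon
    rw [not_exists] at hcon
    simp only [not_not] at hcon
    exact hg (FaithfulSMul.eq_of_smul_eq_smul (fun a => by rw [hcon a, one_smul]))
  have hz : g • y₀ - y₀ ≠ 0 := sub_ne_zero.mpr hy₀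
  obtain ⟨N₀, hN₀⟩ := exists_pow_mul_mem_maxOrder (q := q) (L := L) (y₀ ⊗ₜ[ℚ] (1 : ℚ_[q]))
  obtain ⟨N₁, hN₁⟩ := exists_pow_mul_mem_maxOrder (q := q) (L := L)
    ((g • y₀ - y₀)⁻¹ ⊗ₜ[ℚ] (1 : ℚ_[q]))
  refine ⟨⟨_, hN₀⟩, ⟨_, hN₁⟩, N₀ + N₁, Subtype.ext ?_⟩
  have hgq : g • (((q : ℕ) : SemiLocal L q) ^ N₀) = ((q : ℕ) : SemiLocal L q) ^ N₀ := by
    rw [smul_pow']
    congr 1
    exact map_natCast (MulSemiringAction.toRingHom G (SemiLocal L q) g) q
  show (g • (((q : ℕ) : SemiLocal L q) ^ N₀ * (y₀ ⊗ₜ[ℚ] (1 : ℚ_[q]))) -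
      ((q : ℕ) : SemiLocal L q) ^ N₀ * (y₀ ⊗ₜ[ℚ] (1 : ℚ_[q]))) *
      (((q : ℕ) : SemiLocal L q) ^ N₁ * ((g • y₀ - y₀)⁻¹ ⊗ₜ[ℚ] (1 : ℚ_[q]))) =
      ((q : ℕ) : SemiLocal L q) ^ (N₀ + N₁)
  rw [smul_mul', hgq, smul_tmul_eq, ← mul_sub, ← TensorProduct.sub_tmul, pow_add]
  have e : ((g • y₀ - y₀) ⊗ₜ[ℚ] (1 : ℚ_[q]) : SemiLocal L q) *
      ((g • y₀ - y₀)⁻¹ ⊗ₜ[ℚ] (1 : ℚ_[q])) = 1 := by
    rw [Algebra.TensorProduct.tmul_mul_tmul, mul_inv_cancel₀ hz, mul_one]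
    rfl
  calc ((q : ℕ) : SemiLocal L q) ^ N₀ * ((g • y₀ - y₀) ⊗ₜ[ℚ] (1 : ℚ_[q])) *
        (((q : ℕ) : SemiLocal L q) ^ N₁ * ((g • y₀ - y₀)⁻¹ ⊗ₜ[ℚ] (1 : ℚ_[q])))
      = ((q : ℕ) : SemiLocal L q) ^ N₀ * ((q : ℕ) : SemiLocal L q) ^ N₁ *
        (((g • y₀ - y₀) ⊗ₜ[ℚ] (1 : ℚ_[q]) : SemiLocal L q) *
          ((g • y₀ - y₀)⁻¹ ⊗ₜ[ℚ] (1 : ℚ_[q]))) := by ring
    _ = _ := by rw [e, mul_one]

/-- **Trivial inertia** of the maximal order at an unramified prime. -/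
theorem trivialInertia_order [FaithfulSMul G L] (h : UnramAt L q) :
    TrivialInertia G (maxOrder q L) := by
  haveI := isReduced_quotient L q h
  exact trivialInertia_of (qOrd L q) (qOrd_mem_of_isMaximal L q) (smul_qOrd G L q)
    (qOrd_regular L q) (exists_sep G L q)

end Action

end Fermat.Agent.CFT.Global.LocUnitsDirect

end
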