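import Mathlib
import Fermat.Agent.CFT.Global.LocUnitsDirect.Order
import Fermat.Agent.CFT.Global.ClassDescentS

/-!
# `H¹(G, U_q(L)) = 0` at an unramified prime, directly (second route for the `n = 1` clause of
Global [C3])

No completions and no coinduction: Hilbert 90 for the maximal order of `L ⊗ ℚ_q`
(`Semilocal.exists_unit_of_cocycle`) with the trivial inertia of `Order.trivialInertia_order`.
-/

set_option autoImplicit false
set_option linter.style.haveILetI false

open scoped BigOperators
open CategoryTheory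

noncomputable section

namespace Fermat.Agent.CFT.Global.LocUnitsDirect

open TensorProduct NumberField
open Fermat.Agent.CFT.Global Fermat.Agent.CFT.Global.QBridge
open scoped Fermat.Agent.CFT.Global

/-- `H¹(G, A) = 0` as soon as every `1`-cocycle is a coboundary. -/
theorem isZero_H1_of_cocycles {G : Type} [Group G] (A : Rep ℤ G)
    (h : ∀ f : G → A, (∀ g h : G, f (g * h) = A.ρ g (f h) + f g) →
      ∃ x : A, ∀ g : G, A.ρ g x - x = f g) :
    Limits.IsZero (groupCohomology A 1) := by
  have h0 : ∀ a : groupCohomology.H1 A, a = 0 := by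
    intro a
    induction a using groupCohomology.H1_induction_on with
    | h x =>
      rw [groupCohomology.H1π_eq_zero_iff]
      obtain ⟨y, hy⟩ := h x ((groupCohomology.mem_cocycles₁_iff (x : G → A)).1 x.2)
      exact ⟨y, funext fun g => hy g⟩
  rw [ModuleCat.isZero_iff_subsingleton]
  exact ⟨fun a b => by rw [h0 a, h0 b]⟩

section Main

variable (G L : Type) [Group G] [Fintype G] [Field L] [NumberField L] [MulSemiringAction G L]
  [FaithfulSMul G L] (q : ℕ) [Fact q.Prime]

/-- Hilbert 90 for the local units at an unramified prime, explicit form. -/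
theorem exists_localUnit_of_cocycle (hur : UnramAt L q) (c : G → (SemiLocal L q)ˣ)
    (hc : ∀ g, c g ∈ localUnits L q) (hcoc : ∀ g h : G, c (g * h) = g • c h * c g) :
    ∃ y ∈ localUnits L q, ∀ g : G, g • y / y = c g := by
  classical
  have hmem : ∀ g, (c g : SemiLocal L q) ∈ maxOrder q L ∧
      ((c g)⁻¹ : (SemiLocal L q)ˣ).1 ∈ maxOrder q L :=
    fun g => (mem_localUnits_iff_maxOrder (c g)).1 (hc g)
  let c' : G → (maxOrder q L)ˣ := fun g =>
    ⟨⟨(c g : SemiLocal L q), (hmem g).1⟩, ⟨((c g)⁻¹ : (SemiLocal L q)ˣ).1, (hmem g).2⟩,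
      Subtype.ext (c g).mul_inv, Subtype.ext (c g).inv_mul⟩
  have hc' : ∀ g h, (c' (g * h) : maxOrder q L) = c' g * g • (c' h : maxOrder q L) := by
    intro g h
    apply Subtype.ext
    show ((c (g * h) : (SemiLocal L q)ˣ) : SemiLocal L q) = (c g : SemiLocal L q) * g • (c h : SemiLocal L q)
    rw [hcoc g h, mul_comm]
    rfl
  obtain ⟨b, hb⟩ := exists_unit_of_cocycle (trivialInertia_order G L q hur) c' hc'
  let B : (SemiLocal L q)ˣ := Units.map ((maxOrder q L).subtype : maxOrder q L →* SemiLocal L q) b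
  have hB : B ∈ localUnits L q := by
    rw [mem_localUnits_iff_maxOrder]
    exact ⟨(b : maxOrder q L).2, ((b⁻¹ : (maxOrder q L)ˣ) : maxOrder q L).2⟩
  have hB2 : ∀ g, c g * g • B = B := by
    intro g
    apply Units.ext
    exact congrArg Subtype.val (hb g)
  refine ⟨B⁻¹, inv_mem hB, fun g => ?_⟩
  rw [smul_inv', inv_div_inv, div_eq_iff_eq_mul]
  exact (hB2 g).symm

/-- **The `n = 1` clause of Global [C3]**: `H¹(G, U_q(L)) = 0` at an unramified prime. -/
theorem locUnitsH1 : ClassDescentS.LocUnitsH1 := by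
  intro G L _ _ _ _ _ _ q _ hur
  apply isZero_H1_of_cocycles
  intro f hf
  obtain ⟨y, hy, hyc⟩ := exists_localUnit_of_cocycle G L q hur
    (fun g => (Additive.toMul (f g).1 : (SemiLocal L q)ˣ)) (fun g => (f g).2)
    (fun g h => congrArg
      (fun z : ↥(addSub (localUnits L q)) => (Additive.toMul z.1 : (SemiLocal L q)ˣ)) (hf g h))
  exact ⟨⟨Additive.ofMul y, hy⟩, fun g => Subtype.ext (congrArg Additive.ofMul (hyc g))⟩

end Main

end Fermat.Agent.CFT.Global.LocUnitsDirect

end
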