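import Mathlib
import Fermat.Agent.CFT.Global.LocUnitsDirect.Semilocal

/-!
# Surjectivity of the norm on the units of a complete semilocal ring with trivial inertia

`R` is `ϖ`-adically complete, `R / ϖ` is finite and reduced, a finite group `G` acts on `R` with
trivial inertia and fixes the regular element `ϖ`.  Then every `G`-fixed unit of `R` is the norm
`∏ g, g • w` of a unit: modulo every maximal ideal this is the surjectivity of the norm of finite
fields for the decomposition group, patched by the Chinese remainder theorem; the lift to `R` is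
a successive approximation with an element of trace `1`.
-/

set_option autoImplicit false
set_option linter.style.haveILetI false
set_option linter.unusedSectionVars false

open scoped BigOperators

noncomputable section

namespace Fermat.Agent.CFT.Global.LocUnitsDirect

variable {G R : Type*} [Group G] [CommRing R] [MulSemiringAction G R]

theorem pull_one (𝔪 : Ideal R) : pull (1 : G) 𝔪 = 𝔪 := by
  ext x
  rw [mem_pull, one_smul]

variable (G) in
/-- The stabiliser (decomposition group) of an ideal. -/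
def stab (𝔪 : Ideal R) : Subgroup G where
  carrier := {g | ∀ x : R, g • x ∈ 𝔪 ↔ x ∈ 𝔪}
  one_mem' := fun x => by rw [one_smul]
  mul_mem' := fun {a b} ha hb x => by rw [mul_smul, ha, hb]
  inv_mem' := fun {a} ha x => by rw [← ha, smul_inv_smul]

theorem mem_stab_of_pull_eq {𝔪 : Ideal R} {g : G} (h : pull g 𝔪 = 𝔪) : g ∈ stab G 𝔪 := by
  intro x
  rw [← mem_pull, h]

theorem pull_eq_of_mem_stab {𝔪 : Ideal R} {g : G} (h : g ∈ stab G 𝔪) : pull g 𝔪 = 𝔪 := by
  ext x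
  rw [mem_pull]
  exact h x

/-- The ring endomorphism of `R ⧸ 𝔪` induced by an element of the stabiliser. -/
def stabQuotHom (𝔪 : Ideal R) (d : stab G 𝔪) : R ⧸ 𝔪 →+* R ⧸ 𝔪 :=
  Ideal.quotientMap 𝔪 (MulSemiringAction.toRingHom G R (d : G)) (fun x hx => (d.2 x).mpr hx)

theorem stabQuotHom_mk (𝔪 : Ideal R) (d : stab G 𝔪) (x : R) :
    stabQuotHom 𝔪 d (Ideal.Quotient.mk 𝔪 x) = Ideal.Quotient.mk 𝔪 ((d : G) • x) := rfl

/-- The stabiliser acts on the residue ring. -/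
@[reducible] def stabAction (𝔪 : Ideal R) : MulSemiringAction (stab G 𝔪) (R ⧸ 𝔪) where
  smul d x := stabQuotHom 𝔪 d x
  one_smul x := by
    obtain ⟨x, rfl⟩ := Ideal.Quotient.mk_surjective x
    show stabQuotHom 𝔪 1 _ = _
    rw [stabQuotHom_mk]
    simp
  mul_smul a b x := by
    obtain ⟨x, rfl⟩ := Ideal.Quotient.mk_surjective x
    show stabQuotHom 𝔪 (a * b) _ = stabQuotHom 𝔪 a (stabQuotHom 𝔪 b _)
    rw [stabQuotHom_mk, stabQuotHom_mk, stabQuotHom_mk]
    simp [mul_smul]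
  smul_zero d := map_zero (stabQuotHom 𝔪 d)
  smul_add d := map_add (stabQuotHom 𝔪 d)
  smul_one d := map_one (stabQuotHom 𝔪 d)
  smul_mul d := map_mul (stabQuotHom 𝔪 d)

section Fin

variable [Fintype G]

variable (G) in
/-- The norm `∏ g, g • x`. -/
def nrm (x : R) : R := ∏ g : G, g • x

theorem smul_nrm (h : G) (x : R) : h • nrm G x = nrm G x := by
  unfold nrm
  rw [Finset.smul_prod']
  exact Fintype.prod_equiv (Equiv.mulLeft h) _ _ (fun g => by simp [mul_smul])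

theorem nrm_mul (x y : R) : nrm G (x * y) = nrm G x * nrm G y := by
  unfold nrm
  rw [← Finset.prod_mul_distrib]
  exact Finset.prod_congr rfl fun g _ => smul_mul' g x y

theorem nrm_one : nrm G (1 : R) = 1 := by
  unfold nrm
  simp

/-- The norm of the residue field for the decomposition group is onto the fixed elements. -/
theorem exists_prod_stab_sub_mem (hU : TrivialInertia G R) {𝔪 : Ideal R} (h𝔪 : 𝔪.IsMaximal)
    [Finite (R ⧸ 𝔪)] [DecidablePred fun g : G => g ∈ stab G 𝔪] (u : R)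
    (hu : ∀ g : G, g • u = u) :
    ∃ y : R, ∏ g ∈ Finset.univ.filter (fun g : G => g ∈ stab G 𝔪), g • y - u ∈ 𝔪 := by
  letI := Ideal.Quotient.field 𝔪
  letI := stabAction (G := G) 𝔪
  haveI : FaithfulSMul (stab G 𝔪) (R ⧸ 𝔪) := by
    refine ⟨fun {d d'} h => ?_⟩
    have h1 : ∀ x : R, ((d'⁻¹ * d : stab G 𝔪) : G) • x - x ∈ 𝔪 := by
      intro x
      have h2 : Ideal.Quotient.mk 𝔪 ((d : G) • x) = Ideal.Quotient.mk 𝔪 ((d' : G) • x) :=
        h (Ideal.Quotient.mk 𝔪 x)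
      have h3 : (d : G) • x - (d' : G) • x ∈ 𝔪 := Ideal.Quotient.eq.mp h2
      have h4 := ((d'⁻¹).2 ((d : G) • x - (d' : G) • x)).mpr h3
      have e : ((d'⁻¹ * d : stab G 𝔪) : G) • x - x =
          ((d'⁻¹ : stab G 𝔪) : G) • ((d : G) • x - (d' : G) • x) := by
        rw [smul_sub, Subgroup.coe_mul, mul_smul, Subgroup.coe_inv, inv_smul_smul]
      rw [e]
      exact h4
    have h5 := hU 𝔪 h𝔪 _ h1
    have h6 : d'⁻¹ * d = 1 := Subtype.ext h5
    exact (inv_mul_eq_one.mp h6).symm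
  haveI := Fintype.ofFinite (R ⧸ 𝔪)
  have hu0 : Ideal.Quotient.mk 𝔪 u ∈ FixedPoints.subfield (stab G 𝔪) (R ⧸ 𝔪) := by
    intro d
    show stabQuotHom 𝔪 d (Ideal.Quotient.mk 𝔪 u) = _
    rw [stabQuotHom_mk, hu]
  obtain ⟨ybar, hy⟩ := FiniteField.norm_surjective (FixedPoints.subfield (stab G 𝔪) (R ⧸ 𝔪))
    (R ⧸ 𝔪) ⟨_, hu0⟩
  obtain ⟨y, rfl⟩ := Ideal.Quotient.mk_surjective ybar
  refine ⟨y, ?_⟩
  rw [Finset.prod_subtype (Finset.univ.filter (fun g : G => g ∈ stab G 𝔪))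
    (p := fun g : G => g ∈ stab G 𝔪) (fun g => by simp) (fun g : G => g • y)]
  rw [← Ideal.Quotient.eq, map_prod]
  have h1 := congrArg (algebraMap (FixedPoints.subfield (stab G 𝔪) (R ⧸ 𝔪)) (R ⧸ 𝔪)) hy
  rw [Algebra.norm_eq_prod_automorphisms] at h1
  have h2 : algebraMap (FixedPoints.subfield (stab G 𝔪) (R ⧸ 𝔪)) (R ⧸ 𝔪) ⟨_, hu0⟩ =
      Ideal.Quotient.mk 𝔪 u := rfl
  rw [← h2, ← h1]
  exact Fintype.prod_equiv (FixedPoints.toAlgAutMulEquiv (stab G 𝔪) (R ⧸ 𝔪)).toEquiv _ _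
    (fun d => rfl)

section Patch

variable [Finite (MaximalSpectrum R)]

/-- An element whose norm is `u` along the orbit of `𝔪` and `1` elsewhere. -/
theorem exists_local_nrm (hU : TrivialInertia G R) {𝔪 : Ideal R} (h𝔪 : 𝔪.IsMaximal)
    [Finite (R ⧸ 𝔪)] (u : R) (hu : ∀ g : G, g • u = u) :
    ∃ z : R, (∀ g : G, nrm G z - u ∈ pull g 𝔪) ∧
      ∀ 𝔫 : Ideal R, 𝔫.IsMaximal → (∀ g : G, 𝔫 ≠ pull g 𝔪) → nrm G z - 1 ∈ 𝔫 := by
  classical
  obtain ⟨y, hy⟩ := exists_prod_stab_sub_mem hU h𝔪 u hu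
  have hco : Pairwise (Function.onFun IsCoprime fun 𝔫 : MaximalSpectrum R => 𝔫.asIdeal) := by
    intro 𝔫 𝔫' hne
    rw [Function.onFun, Ideal.isCoprime_iff_sup_eq]
    exact Ideal.IsMaximal.coprime_of_ne 𝔫.isMaximal 𝔫'.isMaximal
      (fun h => hne (MaximalSpectrum.ext h))
  obtain ⟨z, hz⟩ := Ideal.exists_forall_sub_mem_ideal hco
    (fun 𝔫 : MaximalSpectrum R => if 𝔫.asIdeal = 𝔪 then y else 1)
  have hz1 : z - y ∈ 𝔪 := by
    have := hz ⟨𝔪, h𝔪⟩
    rwa [if_pos rfl] at this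
  have hz2 : ∀ 𝔫 : Ideal R, 𝔫.IsMaximal → 𝔫 ≠ 𝔪 → z - 1 ∈ 𝔫 := fun 𝔫 h𝔫 hne => by
    have := hz ⟨𝔫, h𝔫⟩
    rwa [if_neg hne] at this
  have hmain : nrm G z - u ∈ 𝔪 := by
    rw [← Ideal.Quotient.eq]
    have hy' : Ideal.Quotient.mk 𝔪 (∏ g ∈ Finset.univ.filter (fun g : G => g ∈ stab G 𝔪), g • y) =
        Ideal.Quotient.mk 𝔪 u := Ideal.Quotient.eq.mpr hy
    rw [← hy', nrm, map_prod, map_prod,
      ← Finset.prod_filter_mul_prod_filter_not Finset.univ (fun g : G => g ∈ stab G 𝔪)]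
    have h1 : ∏ g ∈ Finset.univ.filter (fun g : G => g ∈ stab G 𝔪), Ideal.Quotient.mk 𝔪 (g • z) =
        ∏ g ∈ Finset.univ.filter (fun g : G => g ∈ stab G 𝔪), Ideal.Quotient.mk 𝔪 (g • y) :=
      Finset.prod_congr rfl (fun g hg => by
        have hg' : g ∈ stab G 𝔪 := (Finset.mem_filter.mp hg).2
        rw [Ideal.Quotient.eq, ← smul_sub]
        exact (hg' _).mpr hz1)
    have h2 : ∏ g ∈ Finset.univ.filter (fun g : G => ¬ g ∈ stab G 𝔪),
        Ideal.Quotient.mk 𝔪 (g • z) = 1 :=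
      Finset.prod_eq_one (fun g hg => by
        have hg' : g ∉ stab G 𝔪 := (Finset.mem_filter.mp hg).2
        have h3 : z - 1 ∈ pull g 𝔪 :=
          hz2 _ (pull_isMaximal g h𝔪) (fun h => hg' (mem_stab_of_pull_eq h))
        rw [mem_pull, smul_sub, smul_one] at h3
        rw [← map_one (Ideal.Quotient.mk 𝔪), Ideal.Quotient.eq]
        exact h3)
    rw [h1, h2, mul_one]
  refine ⟨z, fun g => ?_, fun 𝔫 h𝔫 hne => ?_⟩
  · rw [mem_pull, smul_sub, smul_nrm, hu]
    exact hmain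
  · rw [← Ideal.Quotient.eq, map_one, nrm, map_prod]
    refine Finset.prod_eq_one (fun g _ => ?_)
    have h3 : z - 1 ∈ pull g 𝔫 := hz2 _ (pull_isMaximal g h𝔫) (fun h => by
      have e := eq_pull_of_pull_eq (g := g) (h := (1 : G)) (𝔪 := 𝔪) (𝔫 := 𝔫)
        (by rw [pull_one]; exact h)
      exact hne _ e)
    rw [mem_pull, smul_sub, smul_one] at h3
    rw [← map_one (Ideal.Quotient.mk 𝔫), Ideal.Quotient.eq]
    exact h3

/-- Every fixed element is a norm modulo all maximal ideals. -/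
theorem exists_nrm_sub_mem (hU : TrivialInertia G R)
    (hfin : ∀ 𝔪 : Ideal R, 𝔪.IsMaximal → Finite (R ⧸ 𝔪)) (u : R) (hu : ∀ g : G, g • u = u) :
    ∃ w : R, ∀ 𝔪 : Ideal R, 𝔪.IsMaximal → nrm G w - u ∈ 𝔪 := by
  classical
  haveI := Fintype.ofFinite (MaximalSpectrum R)
  have key : ∀ s : Finset (MaximalSpectrum R), ∃ w : R,
      (∀ 𝔫 ∈ s, nrm G w - u ∈ 𝔫.asIdeal) ∧
      ∀ 𝔫 : Ideal R, 𝔫.IsMaximal → nrm G w - u ∈ 𝔫 ∨ nrm G w - 1 ∈ 𝔫 := by
    intro s
    induction s using Finset.induction_on with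
    | empty =>
      exact ⟨1, fun 𝔫 h => absurd h (Finset.notMem_empty _),
        fun 𝔫 _ => Or.inr (by rw [nrm_one, sub_self]; exact 𝔫.zero_mem)⟩
    | insert 𝔪 s hms ih =>
      obtain ⟨w, hw1, hw2⟩ := ih
      by_cases hwm : nrm G w - u ∈ 𝔪.asIdeal
      · exact ⟨w, fun 𝔫 h𝔫 => by
          rcases Finset.mem_insert.mp h𝔫 with rfl | h
          · exact hwm
          · exact hw1 𝔫 h, hw2⟩
      have hw𝔪 : nrm G w - 1 ∈ 𝔪.asIdeal := (hw2 _ 𝔪.isMaximal).resolve_left hwm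
      haveI := hfin _ 𝔪.isMaximal
      obtain ⟨z, hz1, hz2⟩ := exists_local_nrm hU 𝔪.isMaximal u hu
      have horb : ∀ (𝔫 : Ideal R) (g : G), 𝔫 = pull g 𝔪.asIdeal → nrm G (w * z) - u ∈ 𝔫 := by
        rintro 𝔫 g rfl
        have h1 : nrm G w - 1 ∈ pull g 𝔪.asIdeal := by
          rw [mem_pull, smul_sub, smul_nrm, smul_one]
          exact hw𝔪
        have e : nrm G (w * z) - u = (nrm G w - 1) * nrm G z + (nrm G z - u) := by
          rw [nrm_mul]; ring
        rw [e]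
        exact Ideal.add_mem _ (Ideal.mul_mem_right _ _ h1) (hz1 g)
      have hnot : ∀ 𝔫 : Ideal R, 𝔫.IsMaximal → (∀ g : G, 𝔫 ≠ pull g 𝔪.asIdeal) →
          (nrm G w - u ∈ 𝔫 → nrm G (w * z) - u ∈ 𝔫) ∧
            (nrm G w - 1 ∈ 𝔫 → nrm G (w * z) - 1 ∈ 𝔫) := by
        intro 𝔫 h𝔫 hne
        have h1 := hz2 𝔫 h𝔫 hne
        constructor
        · intro h
          have e : nrm G (w * z) - u = nrm G w * (nrm G z - 1) + (nrm G w - u) := by
            rw [nrm_mul]; ring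
          rw [e]
          exact Ideal.add_mem _ (Ideal.mul_mem_left _ _ h1) h
        · intro h
          have e : nrm G (w * z) - 1 = nrm G w * (nrm G z - 1) + (nrm G w - 1) := by
            rw [nrm_mul]; ring
          rw [e]
          exact Ideal.add_mem _ (Ideal.mul_mem_left _ _ h1) h
      refine ⟨w * z, fun 𝔫 h𝔫 => ?_, fun 𝔫 h𝔫 => ?_⟩
      · rcases Finset.mem_insert.mp h𝔫 with rfl | h
        · exact horb _ 1 (pull_one _).symm
        · by_cases hex : ∃ g : G, 𝔫.asIdeal = pull g 𝔪.asIdeal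
          · obtain ⟨g, hg⟩ := hex
            exact horb _ g hg
          · rw [not_exists] at hex
            exact (hnot _ 𝔫.isMaximal hex).1 (hw1 𝔫 h)
      · by_cases hex : ∃ g : G, 𝔫 = pull g 𝔪.asIdeal
        · obtain ⟨g, hg⟩ := hex
          exact Or.inl (horb _ g hg)
        · rw [not_exists] at hex
          rcases hw2 𝔫 h𝔫 with h | h
          · exact Or.inl ((hnot 𝔫 h𝔫 hex).1 h)
          · exact Or.inr ((hnot 𝔫 h𝔫 hex).2 h)
  obtain ⟨w, hw, -⟩ := key Finset.univ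
  exact ⟨w, fun 𝔪 h𝔪 => hw ⟨𝔪, h𝔪⟩ (Finset.mem_univ _)⟩

end Patch

/-! ### Successive approximation -/

section Approx

theorem prod_one_add_sub_mem_sq {ι : Type*} (s : Finset ι) (x : ι → R) (J : Ideal R)
    (hx : ∀ i ∈ s, x i ∈ J) : ∏ i ∈ s, (1 + x i) - (1 + ∑ i ∈ s, x i) ∈ J * J := by
  classical
  induction s using Finset.induction_on with
  | empty => simp
  | insert a s ha ih =>
    rw [Finset.prod_insert ha, Finset.sum_insert ha]
    have ih' := ih (fun i hi => hx i (Finset.mem_insert_of_mem hi))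
    have hxa := hx a (Finset.mem_insert_self a s)
    have hsum : ∑ i ∈ s, x i ∈ J := J.sum_mem fun i hi => hx i (Finset.mem_insert_of_mem hi)
    have e : (1 + x a) * ∏ i ∈ s, (1 + x i) - (1 + (x a + ∑ i ∈ s, x i)) =
      (1 + x a) * (∏ i ∈ s, (1 + x i) - (1 + ∑ i ∈ s, x i)) + x a * ∑ i ∈ s, x i := by ring
    rw [e]
    exact add_mem (Ideal.mul_mem_left _ _ ih') (Ideal.mul_mem_mul hxa hsum)

theorem mem_span_pow_of_le {ϖ : R} {n m : ℕ} (h : n ≤ m) {x : R}
    (hx : x ∈ Ideal.span {ϖ ^ m}) : x ∈ Ideal.span {ϖ ^ n} := by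
  obtain ⟨r, rfl⟩ := Ideal.mem_span_singleton'.mp hx
  obtain ⟨d, rfl⟩ := Nat.exists_eq_add_of_le h
  rw [pow_add, ← mul_assoc, mul_right_comm]
  exact Ideal.mul_mem_left _ _ (Ideal.mem_span_singleton_self _)

theorem smul_mem_span_pow {ϖ : R} (hfix : ∀ g : G, g • ϖ = ϖ) (k : ℕ) (g : G) (x : R)
    (hx : x ∈ Ideal.span {ϖ ^ k}) : g • x ∈ Ideal.span {ϖ ^ k} := by
  obtain ⟨r, rfl⟩ := Ideal.mem_span_singleton'.mp hx
  rw [smul_mul', smul_pow', hfix]
  exact Ideal.mul_mem_left _ _ (Ideal.mem_span_singleton_self _)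

theorem nrm_sub_nrm_mem {I : Ideal R} (hI : ∀ (g : G) (x : R), x ∈ I → g • x ∈ I) {x y : R}
    (h : x - y ∈ I) : nrm G x - nrm G y ∈ I := by
  rw [← Ideal.Quotient.eq]
  unfold nrm
  rw [map_prod, map_prod]
  exact Finset.prod_congr rfl
    (fun g _ => Ideal.Quotient.eq.mpr (by rw [← smul_sub]; exact hI g _ h))

theorem smul_eq_of_mul_eq_one {a b : R} (hab : b * a = 1) (ha : ∀ g : G, g • a = a) (g : G) :
    g • b = b := by
  have h1 : g • b * a = 1 := by rw [← ha g, ← smul_mul', hab, smul_one]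
  calc g • b = g • b * (a * b) := by rw [mul_comm a, hab, mul_one]
    _ = (g • b * a) * b := by ring
    _ = b := by rw [h1, one_mul]

/-- One step of the approximation. -/
theorem exists_improve {ϖ : R} (hfix : ∀ g : G, g • ϖ = ϖ) (hreg : ∀ x : R, ϖ * x = 0 → x = 0)
    (t : R) (ht : ∑ g : G, g • t = 1) (u uinv : R) (huu : uinv * u = 1)
    (hu : ∀ g : G, g • u = u) (k : ℕ) (hk : 1 ≤ k) (w : R)
    (hw : u - nrm G w ∈ Ideal.span {ϖ ^ k}) :
    ∃ w' : R, w' - w ∈ Ideal.span {ϖ ^ k} ∧ u - nrm G w' ∈ Ideal.span {ϖ ^ (k + 1)} := by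
  obtain ⟨a, ha⟩ := Ideal.mem_span_singleton'.mp hw
  have hregk : ∀ (j : ℕ) (x : R), ϖ ^ j * x = 0 → x = 0 := by
    intro j
    induction j with
    | zero => intro x hx; simpa using hx
    | succ j ih =>
      intro x hx
      exact hreg x (ih _ (by rw [← mul_assoc, ← pow_succ]; exact hx))
  have huinv : ∀ g : G, g • uinv = uinv := smul_eq_of_mul_eq_one huu hu
  have hafix : ∀ g : G, g • a = a := by
    intro g
    apply sub_eq_zero.mp
    apply hregk k
    have e : ϖ ^ k * (g • a - a) = g • (a * ϖ ^ k) - a * ϖ ^ k := by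
      rw [smul_mul', smul_pow', hfix]; ring
    rw [e, ha, smul_sub, hu, smul_nrm, sub_self]
  have hsmul : ∀ g : G, g • (t * (a * uinv)) = g • t * (a * uinv) := fun g => by
    rw [smul_mul', smul_mul', hafix, huinv]
  have htr : ∑ g : G, g • (t * (a * uinv)) = a * uinv := by
    simp_rw [hsmul]
    rw [← Finset.sum_mul, ht, one_mul]
  refine ⟨w * (1 + ϖ ^ k * (t * (a * uinv))), ?_, ?_⟩
  · have e : w * (1 + ϖ ^ k * (t * (a * uinv))) - w = (w * (t * (a * uinv))) * ϖ ^ k := by ring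
    rw [e]
    exact Ideal.mem_span_singleton'.mpr ⟨_, rfl⟩
  · have hprod : nrm G (1 + ϖ ^ k * (t * (a * uinv))) - (1 + ϖ ^ k * (a * uinv)) ∈
        Ideal.span {ϖ ^ (k + 1)} := by
      have h1 := prod_one_add_sub_mem_sq (Finset.univ : Finset G)
        (fun g => ϖ ^ k * g • (t * (a * uinv))) (Ideal.span {ϖ ^ k})
        (fun g _ => Ideal.mul_mem_right _ _ (Ideal.mem_span_singleton_self _))
      have h2 : nrm G (1 + ϖ ^ k * (t * (a * uinv))) =
          ∏ g : G, (1 + ϖ ^ k * g • (t * (a * uinv))) := by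
        unfold nrm
        exact Finset.prod_congr rfl
          (fun g _ => by rw [smul_add, smul_one, smul_mul', smul_pow', hfix])
      rw [Ideal.span_singleton_mul_span_singleton, ← pow_add, ← h2, ← Finset.mul_sum, htr] at h1
      exact mem_span_pow_of_le (m := k + k) (by omega) h1
    have e1 : u - nrm G w * (1 + ϖ ^ k * (a * uinv)) = (a * a * uinv) * ϖ ^ (k + k) := by
      linear_combination (-(1 + ϖ ^ k * a * uinv)) * ha - a * ϖ ^ k * huu
    have e2 : u - nrm G (w * (1 + ϖ ^ k * (t * (a * uinv)))) =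
        (u - nrm G w * (1 + ϖ ^ k * (a * uinv))) -
          nrm G w * (nrm G (1 + ϖ ^ k * (t * (a * uinv))) - (1 + ϖ ^ k * (a * uinv))) := by
      rw [nrm_mul]; ring
    rw [e2, e1]
    refine Ideal.sub_mem _ ?_ (Ideal.mul_mem_left _ _ hprod)
    exact mem_span_pow_of_le (m := k + k) (by omega) (Ideal.mem_span_singleton'.mpr ⟨_, rfl⟩)

theorem mem_pow_smul_top_iff_span {ϖ : R} {n : ℕ} {x : R} :
    x ∈ (Ideal.span {ϖ} ^ n • ⊤ : Submodule R R) ↔ x ∈ Ideal.span {ϖ ^ n} := by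
  rw [smul_eq_mul, Ideal.mul_top, Ideal.span_singleton_pow]

/-- **Norm surjectivity**: in a `ϖ`-adically complete ring with `R / ϖ` finite and reduced and
trivial inertia, every `G`-fixed unit is a norm. -/
theorem exists_nrm_eq (ϖ : R) [IsAdicComplete (Ideal.span {ϖ}) R] [Finite (R ⧸ Ideal.span {ϖ})]
    [IsReduced (R ⧸ Ideal.span {ϖ})] (hfix : ∀ g : G, g • ϖ = ϖ)
    (hreg : ∀ x : R, ϖ * x = 0 → x = 0) (hU : TrivialInertia G R) (u : Rˣ)
    (hu : ∀ g : G, g • (u : R) = u) : ∃ w : R, nrm G w = u := by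
  classical
  have hJ : ∀ 𝔪 : Ideal R, 𝔪.IsMaximal → ϖ ∈ 𝔪 := fun 𝔪 h𝔪 => by
    have h1 : ϖ ∈ (⊥ : Ideal R).jacobson :=
      IsAdicComplete.le_jacobson_bot (Ideal.span {ϖ}) (Ideal.mem_span_singleton_self _)
    exact Ideal.mem_sInf.mp h1 ⟨bot_le, h𝔪⟩
  haveI : Finite (MaximalSpectrum R) := finite_maximalSpectrum_of ϖ hJ
  have hfin : ∀ 𝔪 : Ideal R, 𝔪.IsMaximal → Finite (R ⧸ 𝔪) := fun 𝔪 h𝔪 => by
    have hle : Ideal.span {ϖ} ≤ 𝔪 := (Ideal.span_singleton_le_iff_mem _).mpr (hJ 𝔪 h𝔪)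
    exact Finite.of_surjective (Ideal.Quotient.factor hle) (Ideal.Quotient.factor_surjective hle)
  -- an element of trace one
  obtain ⟨x₀, hx₀⟩ := exists_trace_isUnit (G := G) hU
  obtain ⟨T, hT⟩ := hx₀
  have hTfix : ∀ g : G, g • (T : R) = T := fun g => by
    rw [hT, Finset.smul_sum]
    exact Fintype.sum_equiv (Equiv.mulLeft g) _ _ (fun h => by simp [mul_smul])
  have hTinv : ∀ g : G, g • ((T⁻¹ : Rˣ) : R) = ((T⁻¹ : Rˣ) : R) :=
    smul_eq_of_mul_eq_one (by rw [← Units.val_mul, inv_mul_cancel, Units.val_one]) hTfix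
  have ht : ∑ g : G, g • (x₀ * ((T⁻¹ : Rˣ) : R)) = 1 := by
    have h1 : ∀ g : G, g • (x₀ * ((T⁻¹ : Rˣ) : R)) = g • x₀ * ((T⁻¹ : Rˣ) : R) := fun g => by
      rw [smul_mul', hTinv]
    simp_rw [h1]
    rw [← Finset.sum_mul, ← hT, ← Units.val_mul, mul_inv_cancel, Units.val_one]
  -- the first approximation
  obtain ⟨w₀, hw₀⟩ := exists_nrm_sub_mem hU hfin (u : R) hu
  have h0 : (u : R) - nrm G w₀ ∈ Ideal.span {ϖ ^ (0 + 1)} := by
    rw [zero_add, pow_one]
    refine mem_span_of_forall_mem ϖ _ (fun 𝔪 h𝔪 => ?_)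
    have := 𝔪.neg_mem (hw₀ 𝔪 h𝔪)
    rwa [neg_sub] at this
  have himp : ∀ (k : ℕ), 1 ≤ k → ∀ w : R, (u : R) - nrm G w ∈ Ideal.span {ϖ ^ k} →
      ∃ w' : R, w' - w ∈ Ideal.span {ϖ ^ k} ∧ (u : R) - nrm G w' ∈ Ideal.span {ϖ ^ (k + 1)} :=
    fun k hk w hw => exists_improve hfix hreg _ ht (u : R) ((u⁻¹ : Rˣ) : R)
      (by rw [← Units.val_mul, inv_mul_cancel, Units.val_one]) hu k hk w hw
  let F : (k : ℕ) → {w : R // (u : R) - nrm G w ∈ Ideal.span {ϖ ^ (k + 1)}} := fun k =>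
    Nat.rec (motive := fun k => {w : R // (u : R) - nrm G w ∈ Ideal.span {ϖ ^ (k + 1)}})
      ⟨w₀, h0⟩
      (fun k Fk => ⟨Classical.choose (himp (k + 1) (by omega) Fk.1 Fk.2),
        (Classical.choose_spec (himp (k + 1) (by omega) Fk.1 Fk.2)).2⟩) k
  have hstep : ∀ k, (F (k + 1)).1 - (F k).1 ∈ Ideal.span {ϖ ^ (k + 1)} := fun k =>
    (Classical.choose_spec (himp (k + 1) (by omega) (F k).1 (F k).2)).1
  have hcauchy : ∀ m n, m ≤ n → (F n).1 - (F m).1 ∈ Ideal.span {ϖ ^ (m + 1)} := by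
    intro m n hmn
    induction n, hmn using Nat.le_induction with
    | base => rw [sub_self]; exact Ideal.zero_mem _
    | succ n hmn ih =>
      have e : (F (n + 1)).1 - (F m).1 = ((F (n + 1)).1 - (F n).1) + ((F n).1 - (F m).1) := by
        ring
      rw [e]
      exact Ideal.add_mem _ (mem_span_pow_of_le (by omega) (hstep n)) ih
  obtain ⟨L, hLim⟩ := IsPrecomplete.prec' (I := Ideal.span {ϖ}) (M := R)
    (fun k => (F k).1) (by
      intro m n hmn
      rw [SModEq.sub_mem, mem_pow_smul_top_iff_span, ← neg_sub]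
      exact neg_mem (mem_span_pow_of_le (by omega) (hcauchy m n hmn)))
  have hLim' : ∀ n, L - (F n).1 ∈ Ideal.span {ϖ ^ n} := by
    intro n
    have := hLim n
    rw [SModEq.sub_mem, mem_pow_smul_top_iff_span, ← neg_sub] at this
    simpa using neg_mem this
  refine ⟨L, ?_⟩
  have hzero : (u : R) - nrm G L = 0 := by
    apply IsHausdorff.haus' (I := Ideal.span {ϖ}) ((u : R) - nrm G L)
    intro n
    rw [SModEq.zero, mem_pow_smul_top_iff_span]
    have h1 : nrm G L - nrm G (F n).1 ∈ Ideal.span {ϖ ^ n} :=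
      nrm_sub_nrm_mem (smul_mem_span_pow hfix n) (hLim' n)
    have h2 : (u : R) - nrm G (F n).1 ∈ Ideal.span {ϖ ^ n} :=
      mem_span_pow_of_le (by omega) (F n).2
    have e : (u : R) - nrm G L = ((u : R) - nrm G (F n).1) - (nrm G L - nrm G (F n).1) := by
      ring
    rw [e]
    exact Ideal.sub_mem _ h2 h1
  exact (sub_eq_zero.mp hzero).symm

end Approx

end Fin

end Fermat.Agent.CFT.Global.LocUnitsDirect

end
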