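import Mathlib
import Fermat.Agent.CFT.Global.LocUnitsDirect.H1
import Fermat.Agent.CFT.Global.LocUnitsDirect.Norm
import Fermat.Agent.CFT.Global.Plan
import Fermat.Agent.CFT.Triv.Sylow
import Fermat.Agent.CFT.Coh.TateLow
import Fermat.Agent.CFT.Local.UnitsCoh

/-!
# Global [C3]: the local units at an unramified prime are cohomologically trivial (direct route)

`Plan.LocUnitsAcyclic`: for a finite group `G` acting faithfully on a number field `L` and a
rational prime `q` unramified in `L`, `Hⁿ(G, U_q(L)) = 0` for all `n ≥ 1` and every `G`-fixed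
local unit is a norm.  Degree one is `H1.locUnitsH1`, norm surjectivity is `Norm.exists_nrm_eq`
on the maximal order, and the higher degrees follow from the Sylow criterion for cohomological
triviality (`Triv.isCohTrivial_of_forall_pGroup`) applied to all `p`-subgroups.
-/

set_option autoImplicit false
set_option linter.style.haveILetI false

open scoped BigOperators
open CategoryTheory

noncomputable section

namespace Fermat.Agent.CFT.Global.LocUnitsDirect

open TensorProduct NumberField
open Fermat.Agent.CFT.Global Fermat.Agent.CFT.Global.QBridge Fermat.Agent.CFT.Herbrand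
open scoped Fermat.Agent.CFT.Global

section Norm

variable (G L : Type) [Group G] [Fintype G] [Field L] [NumberField L] [MulSemiringAction G L]
  [FaithfulSMul G L] (q : ℕ) [Fact q.Prime]

/-- **Norm surjectivity for the local units at an unramified prime** (every finite `G`). -/
theorem exists_norm_localUnit (hur : UnramAt L q) (u : (SemiLocal L q)ˣ)
    (hu : u ∈ localUnits L q) (hfix : ∀ g : G, g • u = u) :
    ∃ w ∈ localUnits L q, ∏ g : G, g • w = u := by
  classical
  have hmem := (mem_localUnits_iff_maxOrder u).1 hu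
  let u' : (maxOrder q L)ˣ :=
    ⟨⟨(u : SemiLocal L q), hmem.1⟩, ⟨((u⁻¹ : (SemiLocal L q)ˣ) : SemiLocal L q), hmem.2⟩,
      Subtype.ext u.mul_inv, Subtype.ext u.inv_mul⟩
  have hu' : ∀ g : G, g • (u' : maxOrder q L) = u' := fun g =>
    Subtype.ext (congrArg Units.val (hfix g))
  haveI : IsAdicComplete (Ideal.span {qOrd L q}) (maxOrder q L) :=
    FIUnits.order_isAdicComplete q L
  haveI := isReduced_quotient L q hur
  obtain ⟨w, hw⟩ := exists_nrm_eq (qOrd L q) (smul_qOrd G L q) (qOrd_regular L q)
    (trivialInertia_order G L q hur) u' hu'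
  have hwu : IsUnit w := by
    have h1 : IsUnit (nrm G w) := by rw [hw]; exact u'.isUnit
    have h2 := (IsUnit.prod_univ_iff.mp h1) 1
    rwa [one_smul] at h2
  obtain ⟨b, rfl⟩ := hwu
  let B : (SemiLocal L q)ˣ := Units.map ((maxOrder q L).subtype : maxOrder q L →* SemiLocal L q) b
  have hB : B ∈ localUnits L q := by
    rw [mem_localUnits_iff_maxOrder]
    exact ⟨(b : maxOrder q L).2, ((b⁻¹ : (maxOrder q L)ˣ) : maxOrder q L).2⟩
  refine ⟨B, hB, Units.ext ?_⟩
  have h3 : ((nrm G (b : maxOrder q L) : maxOrder q L) : SemiLocal L q) = u :=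
    congrArg Subtype.val hw
  rw [← h3, Units.coe_prod]
  unfold nrm
  rw [show ((∏ g : G, g • (b : maxOrder q L) : maxOrder q L) : SemiLocal L q) =
    ∏ g : G, ((g • (b : maxOrder q L) : maxOrder q L) : SemiLocal L q) from
    map_prod (maxOrder q L).subtype _ _]
  rfl

end Norm

section Main

open Fermat.Agent.CFT.Triv Fermat.Agent.CFT.Local

/-- The local units at an unramified prime are cohomologically trivial. -/
theorem isCohTrivial_localUnitsRep (G L : Type) [Group G] [Fintype G] [Field L] [NumberField L]
    [MulSemiringAction G L] [FaithfulSMul G L] (q : ℕ) [Fact q.Prime] (hur : UnramAt L q) :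
    IsCohTrivial (localUnitsRep G L q) := by
  apply isCohTrivial_of_forall_pGroup
  intro p _ P _ _ f hf hP
  letI : MulSemiringAction P L := MulSemiringAction.compHom L f
  haveI : FaithfulSMul P L :=
    ⟨fun {a b} h => hf (FaithfulSMul.eq_of_smul_eq_smul (M := G) (α := L) h)⟩
  have e : Rep.res f (localUnitsRep G L q) =
      subRep P (localUnits L q) (fun g _ hx => smul_mem_localUnits P L q g hx) := rfl
  rw [e]
  refine ⟨0, ?_, ?_⟩
  · rw [TateLow.isZero_tateCohomology_zero_iff]
    intro a ha
    obtain ⟨w, hw, hwN⟩ := exists_norm_localUnit P L q hur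
      (UnitsCoh.valSub (localUnits L q) (fun g _ hx => smul_mem_localUnits P L q g hx) a)
      (UnitsCoh.valSub_mem _ _ a) (fun g => by
        rw [← UnitsCoh.valSub_ρ]
        exact congrArg _ (ha g))
    refine ⟨UnitsCoh.mkSub _ _ w hw, UnitsCoh.valSub_injective _ _ ?_⟩
    rw [UnitsCoh.valSub_norm, UnitsCoh.valSub_mkSub, hwN]
  · have h1 : Limits.IsZero (groupCohomology
        (subRep P (localUnits L q) (fun g _ hx => smul_mem_localUnits P L q g hx)) 1) :=
      locUnitsH1 P L q hur
    exact Limits.IsZero.of_iso h1 ((TateCohomology.isoGroupCohomology 1).app _)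

/-- **Global [C3]** `Plan.LocUnitsAcyclic`. -/
theorem locUnitsAcyclic : Plan.LocUnitsAcyclic := by
  intro G L _ _ _ _ _ _ q _ hur
  refine ⟨fun n hn => ?_, ?_⟩
  · have hct := isCohTrivial_localUnitsRep G L q hur G (MonoidHom.id G) Function.injective_id n
    obtain ⟨m, rfl⟩ : ∃ m : ℕ, n = m + 1 := ⟨n - 1, by omega⟩
    haveI : NeZero (m + 1) := ⟨Nat.succ_ne_zero m⟩
    exact Limits.IsZero.of_iso hct
      ((TateCohomology.isoGroupCohomology (m + 1)).app (localUnitsRep G L q)).symm
  · exact (UnitsCoh.h0_subRep_eq_one_iff (localUnits L q)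
      (fun g _ hx => smul_mem_localUnits G L q g hx)).mpr
      (fun u hu hfix => exists_norm_localUnit G L q hur u hu hfix)

end Main

end Fermat.Agent.CFT.Global.LocUnitsDirect

end
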